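/-
P-S56 (Taylor–Wiles primes), block (C), item (T1)/C1, first half (helper53): the SHARP cotangent
count.

`A` a noetherian local `𝒪`-algebra with local structure map and `𝒪 → A → ResidueField A`
surjective, `k := ResidueField 𝒪` finite.  If every `Finset` of `𝒪`-algebra homomorphisms
`A → k[ε]` has at most `(#k) ^ r` elements then `𝔪_A` is generated by `r` elements modulo `𝔪_𝒪 A`:

  `∃ t : Fin r → A, (∀ i, t i ∈ 𝔪_A) ∧ 𝔪_A = span (range t) ⊔ 𝔪_𝒪 A`.

(The landed `S53.TanAlg.exists_generators_of_card_algHom_le` gives only `T` generators from a bound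
`T` on the number of homomorphisms.)  Proof: a minimal generating set `s` of `𝔪_A` modulo
`𝔪_𝒪 A + 𝔪_A ^ 2` has coordinate homomorphisms `φ_x` (`S53.TanAlg.exists_algHom_of_coord`); all
`𝒪`-algebra homomorphisms `A → k[ε]` have the same first component `ρ`; hence for `c : s → k` the
map `a ↦ (ρ a, ∑ x, c x * snd (φ_x a))` is an `𝒪`-algebra homomorphism `φ_c`, and `c ↦ φ_c` is
injective.  So `(#k) ^ #s ≤ (#k) ^ r`, i.e. `#s ≤ r`, and Nakayama concludes.
-/
import Mathlib
import Fermat.Agent.S53.TangentAlg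
import Fermat.Prelude.Def_GaloisRep_DeformationRingData

set_option autoImplicit false
set_option linter.unusedSectionVars false
set_option linter.style.haveILetI false
set_option maxHeartbeats 400000

noncomputable section

namespace Fermat.Agent.S56x.Tangent.CotangentCount

open IsLocalRing Fermat.Agent.S53 Fermat.Agent.S53.TanAlg

variable {𝒪 : Type} [CommRing 𝒪] [IsLocalRing 𝒪] {A : Type} [CommRing A] [IsLocalRing A]
  [Algebra 𝒪 A] [IsLocalHom (algebraMap 𝒪 A)]

/-! ### The first component of a homomorphism to the dual numbers -/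

section Fst

attribute [local instance] dualNumberAlgebra

theorem algebraMap_dualNumber_apply (o : 𝒪) :
    algebraMap 𝒪 (DualNumber (ResidueField 𝒪)) o = TrivSqZeroExt.inl (residue 𝒪 o) := rfl

/-- an `𝒪`-algebra homomorphism `A → k[ε]` kills `𝔪_A` in its first component. -/
theorem fst_eq_zero_of_mem_maximalIdeal (φ : A →ₐ[𝒪] DualNumber (ResidueField 𝒪)) {m : A}
    (hm : m ∈ maximalIdeal A) : TrivSqZeroExt.fst (φ m) = 0 := by
  by_contra hc
  obtain ⟨o, ho⟩ := residue_surjective (R := 𝒪) (TrivSqZeroExt.fst (φ m))⁻¹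
  -- `u = 1 - m * o` is a unit of `A`
  have hu : IsUnit (1 - m * algebraMap 𝒪 A o) := by
    have h1 : m * algebraMap 𝒪 A o ∈ maximalIdeal A := Ideal.mul_mem_right _ _ hm
    by_contra hnu
    have h2 : 1 - m * algebraMap 𝒪 A o ∈ maximalIdeal A := hnu
    have h3 : (1 : A) ∈ maximalIdeal A := by
      have := (maximalIdeal A).add_mem h2 h1
      simp at this
    exact (Ideal.ne_top_iff_one _).mp (maximalIdeal.isMaximal A).ne_top h3
  have hφu : IsUnit (φ (1 - m * algebraMap 𝒪 A o)) := hu.map φ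
  have hfst : TrivSqZeroExt.fst (φ (1 - m * algebraMap 𝒪 A o)) = 0 := by
    rw [map_sub, map_one, map_mul, AlgHom.commutes, algebraMap_dualNumber_apply, ho]
    simp [mul_inv_cancel₀ hc]
  have h4 := (TrivSqZeroExt.isUnit_iff_isUnit_fst).mp hφu
  rw [hfst] at h4
  exact not_isUnit_zero h4

/-- all `𝒪`-algebra homomorphisms `A → k[ε]` have the same first component. -/
theorem fst_eq_fst (hsurj : Function.Surjective (residue A ∘ algebraMap 𝒪 A))
    (φ ψ : A →ₐ[𝒪] DualNumber (ResidueField 𝒪)) (a : A) :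
    TrivSqZeroExt.fst (φ a) = TrivSqZeroExt.fst (ψ a) := by
  obtain ⟨o, ho⟩ := hsurj (residue A a)
  have h1 : a - algebraMap 𝒪 A o ∈ maximalIdeal A := by
    rw [← residue_eq_residue_iff]; exact ho.symm
  have e : a = algebraMap 𝒪 A o + (a - algebraMap 𝒪 A o) := by ring
  rw [e, map_add, map_add, AlgHom.commutes, AlgHom.commutes, TrivSqZeroExt.fst_add,
    TrivSqZeroExt.fst_add, fst_eq_zero_of_mem_maximalIdeal φ h1,
    fst_eq_zero_of_mem_maximalIdeal ψ h1]

end Fst

/-! ### Linear combinations of homomorphisms to the dual numbers -/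

section Comb

attribute [local instance] dualNumberAlgebra

variable {ι : Type} [Fintype ι]

/-- the "derivation part" of the combination. -/
def combSnd (φ : ι → (A →ₐ[𝒪] DualNumber (ResidueField 𝒪))) (c : ι → ResidueField 𝒪) (a : A) :
    ResidueField 𝒪 :=
  ∑ i, c i * TrivSqZeroExt.snd (φ i a)

theorem combSnd_add (φ : ι → (A →ₐ[𝒪] DualNumber (ResidueField 𝒪))) (c : ι → ResidueField 𝒪)
    (a b : A) : combSnd φ c (a + b) = combSnd φ c a + combSnd φ c b := by
  unfold combSnd
  rw [← Finset.sum_add_distrib]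
  refine Finset.sum_congr rfl fun i _ => ?_
  rw [map_add, TrivSqZeroExt.snd_add, mul_add]

theorem combSnd_algebraMap (φ : ι → (A →ₐ[𝒪] DualNumber (ResidueField 𝒪)))
    (c : ι → ResidueField 𝒪) (o : 𝒪) : combSnd φ c (algebraMap 𝒪 A o) = 0 := by
  unfold combSnd
  refine Finset.sum_eq_zero fun i _ => ?_
  rw [AlgHom.commutes, algebraMap_dualNumber_apply, TrivSqZeroExt.snd_inl, mul_zero]

theorem combSnd_mul (hsurj : Function.Surjective (residue A ∘ algebraMap 𝒪 A))
    (φ : ι → (A →ₐ[𝒪] DualNumber (ResidueField 𝒪))) (c : ι → ResidueField 𝒪)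
    (ψ : A →ₐ[𝒪] DualNumber (ResidueField 𝒪)) (a b : A) :
    combSnd φ c (a * b) =
      TrivSqZeroExt.fst (ψ a) * combSnd φ c b + TrivSqZeroExt.fst (ψ b) * combSnd φ c a := by
  unfold combSnd
  rw [Finset.mul_sum, Finset.mul_sum, ← Finset.sum_add_distrib]
  refine Finset.sum_congr rfl fun i _ => ?_
  rw [map_mul, TrivSqZeroExt.snd_mul, fst_eq_fst hsurj (φ i) ψ a, fst_eq_fst hsurj (φ i) ψ b]
  simp only [smul_eq_mul, MulOpposite.smul_eq_mul_unop, MulOpposite.unop_op]
  ring

/-- the combination `a ↦ (ρ a, ∑ i, c i * snd (φ i a))`, `ρ = fst ∘ ψ`. -/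
def comb (hsurj : Function.Surjective (residue A ∘ algebraMap 𝒪 A))
    (φ : ι → (A →ₐ[𝒪] DualNumber (ResidueField 𝒪))) (ψ : A →ₐ[𝒪] DualNumber (ResidueField 𝒪))
    (c : ι → ResidueField 𝒪) : A →ₐ[𝒪] DualNumber (ResidueField 𝒪) where
  toFun a := TrivSqZeroExt.inl (TrivSqZeroExt.fst (ψ a)) + TrivSqZeroExt.inr (combSnd φ c a)
  map_one' := by
    have h : combSnd φ c (1 : A) = 0 := by
      have := combSnd_algebraMap φ c (1 : 𝒪)
      rwa [map_one] at this
    rw [h, map_one]
    simp
  map_mul' a b := by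
    rw [combSnd_mul hsurj φ c ψ, map_mul]
    apply TrivSqZeroExt.ext
    · simp
    · simp [mul_comm]
  map_zero' := by
    have h : combSnd φ c (0 : A) = 0 := by
      have := combSnd_algebraMap φ c (0 : 𝒪)
      rwa [map_zero] at this
    rw [h, map_zero]
    simp
  map_add' a b := by
    rw [combSnd_add, map_add]
    apply TrivSqZeroExt.ext
    · simp
    · simp
  commutes' o := by
    rw [combSnd_algebraMap, AlgHom.commutes, algebraMap_dualNumber_apply]
    simp

theorem snd_comb (hsurj : Function.Surjective (residue A ∘ algebraMap 𝒪 A))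
    (φ : ι → (A →ₐ[𝒪] DualNumber (ResidueField 𝒪))) (ψ : A →ₐ[𝒪] DualNumber (ResidueField 𝒪))
    (c : ι → ResidueField 𝒪) (a : A) :
    TrivSqZeroExt.snd (comb hsurj φ ψ c a) = combSnd φ c a := by
  show TrivSqZeroExt.snd (TrivSqZeroExt.inl (TrivSqZeroExt.fst (ψ a)) +
    TrivSqZeroExt.inr (combSnd φ c a) : DualNumber (ResidueField 𝒪)) = _
  simp

end Comb

/-! ### The sharp count -/

section Count

/-- the coordinate homomorphisms of a generating set of minimal cardinality. -/
theorem exists_coord_homs (hsurj : Function.Surjective (residue A ∘ algebraMap 𝒪 A))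
    {s : Finset A} (hs : GenSet 𝒪 s)
    (hmin : ∀ s' : Finset A, GenSet 𝒪 s' → s.card ≤ s'.card) :
    letI : Algebra 𝒪 (DualNumber (ResidueField 𝒪)) := dualNumberAlgebra 𝒪
    ∀ x ∈ s, ∃ φ : A →ₐ[𝒪] DualNumber (ResidueField 𝒪),
      (∀ y ∈ s, y ≠ x → φ y = 0) ∧ φ x = TrivSqZeroExt.inr 1 := by
  classical
  letI : Algebra 𝒪 (DualNumber (ResidueField 𝒪)) := dualNumberAlgebra 𝒪
  set I0 : Ideal A := (maximalIdeal 𝒪).map (algebraMap 𝒪 A) ⊔ maximalIdeal A ^ 2 with hI0
  have hI0le : I0 ≤ maximalIdeal A := sup_le map_maximalIdeal_le sq_maximalIdeal_le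
  intro x hx
  set J : Ideal A := Ideal.span ((s.erase x : Finset A) : Set A) ⊔ I0 with hJ
  have hJle : J ≤ maximalIdeal A := by
    refine sup_le ?_ hI0le
    rw [Ideal.span_le]
    intro y hy
    exact hs.1 y (Finset.mem_of_mem_erase hy)
  have hxJ : x ∉ J := by
    intro hxJ
    have hgen' : GenSet 𝒪 (s.erase x) := by
      refine ⟨fun y hy => hs.1 y (Finset.mem_of_mem_erase hy), ?_⟩
      refine hs.2.trans ?_
      refine sup_le ?_ le_sup_right
      rw [Ideal.span_le]
      intro y hy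
      by_cases hyx : y = x
      · rw [hyx]; exact hxJ
      · exact le_sup_left (a := Ideal.span ((s.erase x : Finset A) : Set A)) (b := I0)
          (Ideal.subset_span (Finset.mem_erase.mpr ⟨hyx, hy⟩))
    have h1 := hmin _ hgen'
    rw [Finset.card_erase_of_mem hx] at h1
    have h2 : 0 < s.card := Finset.card_pos.mpr ⟨x, hx⟩
    omega
  have hgen : maximalIdeal A ≤ J ⊔ Ideal.span {x} := by
    refine hs.2.trans ?_
    refine sup_le ?_ (le_sup_of_le_left le_sup_right)
    rw [Ideal.span_le]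
    intro y hy
    by_cases hyx : y = x
    · rw [hyx]
      exact le_sup_right (a := J) (Ideal.subset_span (Set.mem_singleton x))
    · exact le_sup_left (b := Ideal.span {x}) (le_sup_left (b := I0)
          (Ideal.subset_span (Finset.mem_erase.mpr ⟨hyx, hy⟩)))
  obtain ⟨φ, hφJ, hφx⟩ := exists_algHom_of_coord (𝒪 := 𝒪) hsurj
    (le_sup_of_le_right le_sup_left) (le_sup_of_le_right le_sup_right) hJle (hs.1 x hx) hxJ hgen
  refine ⟨φ, fun y hy hyx => hφJ y ?_, hφx⟩
  exact le_sup_left (b := I0) (Ideal.subset_span (Finset.mem_erase.mpr ⟨hyx, hy⟩))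

/-- **the sharp bound on a minimal generating set**: `#s ≤ r` if there are at most `(#k) ^ r`
homomorphisms to the dual numbers. -/
theorem card_le_of_minimal_pow [Finite (ResidueField 𝒪)]
    (hsurj : Function.Surjective (residue A ∘ algebraMap 𝒪 A))
    {s : Finset A} (hs : GenSet 𝒪 s)
    (hmin : ∀ s' : Finset A, GenSet 𝒪 s' → s.card ≤ s'.card) (r : ℕ)
    (hT : letI : Algebra 𝒪 (DualNumber (ResidueField 𝒪)) := dualNumberAlgebra 𝒪
      ∀ S : Finset (A →ₐ[𝒪] DualNumber (ResidueField 𝒪)),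
        S.card ≤ Nat.card (ResidueField 𝒪) ^ r) :
    s.card ≤ r := by
  classical
  letI : Algebra 𝒪 (DualNumber (ResidueField 𝒪)) := dualNumberAlgebra 𝒪
  haveI : Fintype (ResidueField 𝒪) := Fintype.ofFinite _
  rcases s.eq_empty_or_nonempty with hempty | ⟨x0, hx0⟩
  · rw [hempty, Finset.card_empty]
    exact Nat.zero_le r
  have hcoord := exists_coord_homs hsurj hs hmin
  choose φ hφ0 hφ1 using hcoord
  -- the family of coordinate homomorphisms, indexed by the subtype
  let Φ : {x // x ∈ s} → (A →ₐ[𝒪] DualNumber (ResidueField 𝒪)) := fun x => φ x.1 x.2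
  let ψ : A →ₐ[𝒪] DualNumber (ResidueField 𝒪) := φ x0 hx0
  have hval : ∀ (c : {x // x ∈ s} → ResidueField 𝒪) (y : {x // x ∈ s}),
      TrivSqZeroExt.snd (comb hsurj Φ ψ c (y : A)) = c y := by
    intro c y
    rw [snd_comb]
    unfold combSnd
    rw [Finset.sum_eq_single y]
    · have h1 : Φ y (y : A) = TrivSqZeroExt.inr 1 := hφ1 y.1 y.2
      rw [h1, TrivSqZeroExt.snd_inr, mul_one]
    · intro x _ hxy
      have hne : (y : A) ≠ x := fun h => hxy (Subtype.ext h.symm)
      have h1 : Φ x (y : A) = 0 := hφ0 x.1 x.2 y.1 y.2 hne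
      rw [h1, TrivSqZeroExt.snd_zero, mul_zero]
    · intro h
      exact absurd (Finset.mem_univ y) h
  have hinj : Function.Injective (comb hsurj Φ ψ) := by
    intro c c' hcc
    funext y
    rw [← hval c y, ← hval c' y, hcc]
  have h1 := hT (Finset.univ.image (comb hsurj Φ ψ))
  rw [Finset.card_image_of_injective _ hinj, Finset.card_univ, Fintype.card_fun,
    Fintype.card_coe, Nat.card_eq_fintype_card] at h1
  have hk : 1 < Fintype.card (ResidueField 𝒪) := Fintype.one_lt_card
  exact (Nat.pow_le_pow_iff_right hk).mp h1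

/-- **(T1), first half**: if there are at most `(#k) ^ r` `𝒪`-algebra homomorphisms `A → k[ε]`
then `𝔪_A` is generated by `r` elements modulo `𝔪_𝒪 A`. -/
theorem exists_generators_of_card_algHom_le_pow [IsNoetherianRing A] [Finite (ResidueField 𝒪)]
    (hsurj : Function.Surjective (residue A ∘ algebraMap 𝒪 A)) (r : ℕ)
    (hT : letI : Algebra 𝒪 (DualNumber (ResidueField 𝒪)) := dualNumberAlgebra 𝒪
      ∀ S : Finset (A →ₐ[𝒪] DualNumber (ResidueField 𝒪)),
        S.card ≤ Nat.card (ResidueField 𝒪) ^ r) :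
    ∃ t : Fin r → A, (∀ i, t i ∈ maximalIdeal A) ∧
      maximalIdeal A = Ideal.span (Set.range t) ⊔ (maximalIdeal 𝒪).map (algebraMap 𝒪 A) := by
  classical
  -- a generating set of minimal cardinality
  have hex : ∃ n : ℕ, ∃ s : Finset A, GenSet 𝒪 s ∧ s.card = n := by
    obtain ⟨s, hs⟩ := exists_genSet (𝒪 := 𝒪) (A := A)
    exact ⟨s.card, s, hs, rfl⟩
  obtain ⟨s, hs, hcard⟩ := Nat.find_spec hex
  have hmin : ∀ s' : Finset A, GenSet 𝒪 s' → s.card ≤ s'.card := by
    intro s' hs'
    rw [hcard]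
    exact Nat.find_min' hex ⟨s', hs', rfl⟩
  have hsT : s.card ≤ r := card_le_of_minimal_pow hsurj hs hmin r hT
  -- enumerate `s` by `Fin r`
  obtain ⟨f⟩ : Nonempty ((s : Set A) ↪ Fin r) := by
    apply Function.Embedding.nonempty_of_card_le
    simpa using hsT
  set t : Fin r → A := Function.extend f (fun x => (x : A)) 0 with ht
  have htm : ∀ i, t i ∈ maximalIdeal A := by
    intro i
    by_cases h : ∃ a, f a = i
    · obtain ⟨a, rfl⟩ := h
      rw [ht, f.injective.extend_apply]
      exact hs.1 _ a.2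
    · rw [ht, Function.extend_apply' _ _ _ h]
      exact zero_mem _
  have hsub : (s : Set A) ⊆ Set.range t := by
    intro x hx
    refine ⟨f ⟨x, hx⟩, ?_⟩
    rw [ht, f.injective.extend_apply]
  refine ⟨t, htm, le_antisymm ?_ ?_⟩
  · -- Nakayama
    have h1 : maximalIdeal A ≤ (Ideal.span (Set.range t) ⊔
        (maximalIdeal 𝒪).map (algebraMap 𝒪 A)) ⊔ maximalIdeal A • maximalIdeal A := by
      refine hs.2.trans ?_
      rw [← sup_assoc, smul_eq_mul, ← pow_two]
      exact sup_le_sup_right (sup_le_sup_right (Ideal.span_mono hsub) _) _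
    have hfg : (maximalIdeal A).FG := (isNoetherianRing_iff_ideal_fg A).mp inferInstance _
    have hjac : maximalIdeal A ≤ Ideal.jacobson ⊥ := by
      rw [IsLocalRing.jacobson_eq_maximalIdeal ⊥ bot_ne_top]
    exact Submodule.le_of_le_smul_of_le_jacobson_bot hfg hjac h1
  · refine sup_le ?_ map_maximalIdeal_le
    rw [Ideal.span_le]
    rintro _ ⟨i, rfl⟩
    exact htm i

end Count

/-! ### The instance for a deformation ring -/

section Deformation

/-- **(T1), first half, for a universal deformation ring**. -/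
theorem exists_generators_deformationRing {𝒪 : Type} [CommRing 𝒪] [IsDomain 𝒪]
    [IsDiscreteValuationRing 𝒪] [IsAdicComplete (maximalIdeal 𝒪) 𝒪] [Finite (ResidueField 𝒪)]
    {ρbar : ResidualGaloisRep (ResidueField 𝒪)}
    {𝒟 : ∀ ⦃A : Type⦄ [CommRing A] [IsLocalRing A] [Algebra 𝒪 A], GaloisRepAdic A → Prop}
    (DQ : GaloisRep.DeformationRingData 𝒪 ρbar 𝒟) (r : ℕ)
    (hT : letI : Algebra 𝒪 (DualNumber (ResidueField 𝒪)) := dualNumberAlgebra 𝒪
      ∀ S : Finset (DQ.R →ₐ[𝒪] DualNumber (ResidueField 𝒪)),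
        S.card ≤ Nat.card (ResidueField 𝒪) ^ r) :
    ∃ t : Fin r → DQ.R, (∀ i, t i ∈ maximalIdeal DQ.R) ∧
      maximalIdeal DQ.R =
        Ideal.span (Set.range t) ⊔ (maximalIdeal 𝒪).map (algebraMap 𝒪 DQ.R) :=
  exists_generators_of_card_algHom_le_pow DQ.residue_surjective r hT

end Deformation

end Fermat.Agent.S56x.Tangent.CotangentCount
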